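/-
P-S58 row 1096 [S58-TB] (helper89): `traceBound : TraceBoundStatement`,
`a_q(W) ≠ ± (q + 1)`, i.e. `1 ≤ #E(𝔽_q) ≤ 2 q + 1` for every Weierstrass equation.
-/
import Mathlib
import Fermat.Agent.H51.S58.Interfaces

set_option autoImplicit false
set_option linter.unusedSectionVars false
set_option linter.style.haveILetI false

noncomputable section

namespace Fermat.Agent.H89.S58

open Polynomial

section Count

variable {F : Type} [Field F] [Fintype F] [DecidableEq F]

/-- the quadratic polynomial satisfied by the `y`-coordinates of the points with given `x` -/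
def tbQuad (W : WeierstrassCurve F) (x : F) : F[X] :=
  X ^ 2 + C (W.a₁ * x + W.a₃) * X - C (x ^ 3 + W.a₂ * x ^ 2 + W.a₄ * x + W.a₆)

lemma tbQuad_natDegree (W : WeierstrassCurve F) (x : F) : (tbQuad W x).natDegree = 2 := by
  unfold tbQuad
  compute_degree!

lemma tbQuad_ne_zero (W : WeierstrassCurve F) (x : F) : tbQuad W x ≠ 0 := by
  intro h
  have := tbQuad_natDegree W x
  rw [h, natDegree_zero] at this
  exact absurd this (by norm_num)

lemma tbQuad_isRoot (W : WeierstrassCurve F) (x y : F) (h : W.toAffine.Equation x y) :
    (tbQuad W x).IsRoot y := by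
  rw [WeierstrassCurve.Affine.equation_iff] at h
  unfold tbQuad
  simp only [IsRoot.def, eval_sub, eval_add, eval_pow, eval_X, eval_mul, eval_C]
  linear_combination h

/-- the number of solutions of a Weierstrass equation over a finite field with `q` elements is
at most `2 q` -/
lemma tb_card_solutions_le (W : WeierstrassCurve F) :
    Nat.card {p : F × F // W.toAffine.Equation p.1 p.2} ≤ 2 * Fintype.card F := by
  classical
  rw [Nat.card_eq_fintype_card, Fintype.card_subtype]
  set S := Finset.univ.filter fun p : F × F => W.toAffine.Equation p.1 p.2 with hS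
  refine le_trans (Finset.card_le_mul_card_image (f := Prod.fst) S 2 ?_) ?_
  · intro a _
    have hinj : Set.InjOn (fun p : F × F => p.2)
        ((S.filter fun p => p.1 = a : Finset (F × F)) : Set (F × F)) := by
      intro p hp p' hp' h
      rw [Finset.mem_coe, Finset.mem_filter] at hp hp'
      exact Prod.ext (hp.2.trans hp'.2.symm) h
    have hmaps : ∀ p ∈ (S.filter fun p => p.1 = a), p.2 ∈ (tbQuad W a).roots.toFinset := by
      intro p hp
      rw [Finset.mem_filter, hS, Finset.mem_filter] at hp
      rw [Multiset.mem_toFinset, mem_roots (tbQuad_ne_zero W a), ← hp.2]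
      exact tbQuad_isRoot W _ _ hp.1.2
    calc (S.filter fun p => p.1 = a).card
        ≤ (tbQuad W a).roots.toFinset.card := Finset.card_le_card_of_injOn _ hmaps hinj
      _ ≤ Multiset.card (tbQuad W a).roots := Multiset.toFinset_card_le _
      _ ≤ (tbQuad W a).natDegree := card_roots' _
      _ = 2 := tbQuad_natDegree W a
  · exact Nat.mul_le_mul_left 2 (Finset.card_le_univ _)

/-- the points as an optional solution -/
def tbToOption (W : WeierstrassCurve F) :
    W.toAffine.Point → Option {p : F × F // W.toAffine.Equation p.1 p.2}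
  | .zero => none
  | .some (x := x) (y := y) h => some ⟨(x, y), h.1⟩

lemma tbToOption_injective (W : WeierstrassCurve F) : Function.Injective (tbToOption W) := by
  rintro (_ | ⟨h₁⟩) (_ | ⟨h₂⟩) h
  · rfl
  · simp [tbToOption] at h
  · simp [tbToOption] at h
  · simp only [tbToOption, Option.some.injEq, Subtype.mk.injEq, Prod.mk.injEq] at h
    obtain ⟨rfl, rfl⟩ := h
    rfl

lemma tb_card_point_le (W : WeierstrassCurve F) :
    Nat.card W.toAffine.Point ≤ 2 * Fintype.card F + 1 := by
  classical
  have h1 : Nat.card W.toAffine.Point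
      ≤ Nat.card (Option {p : F × F // W.toAffine.Equation p.1 p.2}) :=
    Nat.card_le_card_of_injective _ (tbToOption_injective W)
  refine le_trans h1 ?_
  rw [Nat.card_eq_fintype_card, Fintype.card_option, ← Nat.card_eq_fintype_card]
  exact Nat.succ_le_succ (tb_card_solutions_le W)

end Count

/-- **[S58-TB] CARD-BOUND.** -/
theorem traceBound : Fermat.Agent.H51.S58.TraceBoundStatement := by
  intro W q hq
  haveI : Fact q.Prime := ⟨hq⟩
  classical
  have hq' : Nat.card (ZMod q) = q := by
    rw [Nat.card_eq_fintype_card, ZMod.card]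
  have h1 : 1 ≤ Nat.card (W.reductionMod q).toAffine.Point :=
    Nat.card_pos
  have h2 : Nat.card (W.reductionMod q).toAffine.Point ≤ 2 * q + 1 := by
    have := tb_card_point_le (W.reductionMod q)
    rwa [ZMod.card] at this
  have hap : W.apOfModel q = (q : ℤ) + 1 - (Nat.card (W.reductionMod q).toAffine.Point : ℤ) := by
    unfold WeierstrassCurve.apOfModel WeierstrassCurve.traceOfFrobenius WeierstrassCurve.card
    rw [hq']
  rw [hap]
  constructor <;> omega

end Fermat.Agent.H89.S58

end
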